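import Mathlib
import Fermat.Prelude.Def_ModularCurve_PeriodHomPair
import Fermat.Prelude.Thm_Subgroup_IsArithmetic_exists_nat_mem_strictPeriods_conj
import Fermat.Prelude.Thm_CongruenceSubgroup_one_mem_strictPeriods_Gamma0
import Fermat.Agent.S22.Prim

set_option autoImplicit false

namespace Fermat.Agent.S21Lib

open UpperHalfPlane hiding I
open Complex Filter Function Metric Set Matrix.SpecialLinearGroup CongruenceSubgroup
open Fermat.Agent.S22Lib ModularCurve ModularCurve.Period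
open scoped Manifold Topology Real ModularForm MatrixGroups Pointwise

/-- chain rule for primitives under Möbius transformations (weight two). -/
theorem IsPrim.comp_smul {G g : ℍ → ℂ} (h : IsPrim G g) (A : GL (Fin 2) ℝ) (hA : 0 < A.val.det) :
    IsPrim (fun τ => G (A • τ)) (g ∣[(2 : ℤ)] A) := by
  intro τ
  have h1 := h (A • τ)
  have h2 := (hasStrictDerivAt_smul hA τ).hasDerivAt
  have h1' : HasDerivAt (G ∘ ofComplex) (g (A • τ))
      ((fun z : ℂ => ((A • ofComplex z : ℍ) : ℂ)) (τ : ℂ)) := by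
    simpa using h1
  have h3 := h1'.comp (τ : ℂ) h2
  have hA' : 0 < A.det.val := by simpa [Matrix.GeneralLinearGroup.val_det_apply] using hA
  have hσ : σ A = .refl ℝ ℂ := by rw [σ, if_pos hA']
  have h4 : (g ∣[(2 : ℤ)] A) τ = g (A • τ) * ((A.val.det : ℂ) / denom A τ ^ 2) := by
    rw [ModularForm.slash_apply, hσ]
    simp only [ContinuousAlgEquiv.refl_apply, Matrix.GeneralLinearGroup.val_det_apply,
      abs_of_pos hA]
    rw [show (2 : ℤ) - 1 = 1 by norm_num, zpow_one, show (-2 : ℤ) = -((2 : ℕ) : ℤ) by norm_num,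
      zpow_neg, zpow_natCast]
    ring
  rw [h4]
  refine h3.congr_of_eventuallyEq (Eventually.of_forall fun z => ?_)
  simp

theorem det_mapGL_pos' (g : SL(2, ℤ)) : 0 < (mapGL ℝ g : GL (Fin 2) ℝ).val.det := by
  rw [← Matrix.GeneralLinearGroup.val_det_apply]
  simp

variable {N : ℕ} [NeZero N]

local notation "V" => CuspForm (Gamma0 N) 2

/-- a common period at all the cusps -/
def IsComPer (N : ℕ) (M : ℝ) : Prop :=
  ∀ γ : SL(2, ℤ), M ∈ (ConjAct.toConjAct (mapGL ℝ γ) •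
    (Gamma0 N : Subgroup (GL (Fin 2) ℝ))).strictPeriods

theorem exists_isComPer (N : ℕ) [NeZero N] : ∃ M : ℝ, 0 < M ∧ IsComPer N M := by
  obtain ⟨M, hMpos, hM⟩ := Subgroup.IsArithmetic.exists_nat_mem_strictPeriods_conj
    (Gamma0 N : Subgroup (GL (Fin 2) ℝ))
  exact ⟨M, by exact_mod_cast hMpos, hM⟩

theorem slash_mem_decay' {M : ℝ} (hM : IsComPer N M) (f : V) (g : SL(2, ℤ)) :
    (⇑f ∣[(2 : ℤ)] (mapGL ℝ g : GL (Fin 2) ℝ)) ∈ decaySubmodule M := by
  refine ⟨(CuspFormClass.holo f).slash _ _, ?_, CuspFormClass.zero_at_infty_slash f g⟩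
  have h1 := hM g⁻¹
  rw [map_inv] at h1
  exact SlashInvariantFormClass.periodic_comp_ofComplex (CuspForm.translate f (mapGL ℝ g)) h1

theorem coe_mem_decay_one (f : V) : (⇑f : ℍ → ℂ) ∈ decaySubmodule 1 :=
  ⟨CuspFormClass.holo f, by
    simpa using SlashInvariantFormClass.periodic_comp_ofComplex f
      (CongruenceSubgroup.one_mem_strictPeriods_Gamma0 N), CuspFormClass.zero_at_infty f⟩

/-- cusp forms as decaying 1-periodic functions. -/
def embOne : V →ₗ[ℂ] decaySubmodule 1 where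
  toFun f := ⟨⇑f, coe_mem_decay_one f⟩
  map_add' _ _ := rfl
  map_smul' _ _ := rfl

instance factOnePos : Fact ((0 : ℝ) < 1) := ⟨one_pos⟩

/-- the Eichler integral (decaying primitive) of a weight two cusp form, linear in the form -/
noncomputable def FPl : V →ₗ[ℂ] decaySubmodule 1 := (prim 1) ∘ₗ embOne

/-- the Eichler integral as a function -/
noncomputable def FP (f : V) : ℍ → ℂ := (FPl f : ℍ → ℂ)

theorem FP_isPrim (f : V) : IsPrim (FP f) f := prim_isPrim 1 (embOne f)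

theorem FP_mem (f : V) : FP f ∈ decaySubmodule 1 := (FPl f).2

theorem FP_zero_at (f : V) : Tendsto (FP f) atImInfty (𝓝 0) := (FP_mem f).2.2

theorem FP_add (f g : V) : FP (f + g) = FP f + FP g := by
  unfold FP; rw [map_add]; rfl

theorem FP_smul (c : ℂ) (f : V) : FP (c • f) = c • FP f := by
  unfold FP; rw [map_smul]; rfl

/-- behaviour of the Eichler integral at an arbitrary cusp -/
theorem FP_comp_smul {M : ℝ} (hM0 : 0 < M) (hM : IsComPer N M) (f : V) (δ : SL(2, ℤ)) :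
    ∃ G ∈ decaySubmodule M, ∃ L : ℂ, ∀ z : ℍ, FP f (δ • z) = G z + L := by
  obtain ⟨G, hG, hGp⟩ := exists_prim hM0 (slash_mem_decay' hM f δ)
  have h1 : IsPrim (fun τ => FP f ((mapGL ℝ δ : GL (Fin 2) ℝ) • τ))
      (⇑f ∣[(2 : ℤ)] (mapGL ℝ δ : GL (Fin 2) ℝ)) :=
    IsPrim.comp_smul (FP_isPrim f) _ (det_mapGL_pos' δ)
  refine ⟨G, hG, FP f (δ • UpperHalfPlane.I) - G UpperHalfPlane.I, fun z => ?_⟩
  have := h1.sub_eq_sub hGp z UpperHalfPlane.I
  have h2 : FP f (δ • z) - G z = FP f (δ • UpperHalfPlane.I) - G UpperHalfPlane.I := this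
  linear_combination h2

theorem FP_equivariant (f : V) : IsEquivariantPrimitive (Gamma0 N) (FP f) := by
  intro γ
  refine ⟨FP f ((γ : SL(2, ℤ)) • UpperHalfPlane.I) - FP f UpperHalfPlane.I, fun z => ?_⟩
  have h1 : IsPrim (fun τ => FP f ((mapGL ℝ (γ : SL(2, ℤ)) : GL (Fin 2) ℝ) • τ))
      (⇑f ∣[(2 : ℤ)] (mapGL ℝ (γ : SL(2, ℤ)) : GL (Fin 2) ℝ)) :=
    IsPrim.comp_smul (FP_isPrim f) _ (det_mapGL_pos' γ)
  have h2 : (⇑f ∣[(2 : ℤ)] (mapGL ℝ (γ : SL(2, ℤ)) : GL (Fin 2) ℝ)) = ⇑f :=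
    SlashInvariantFormClass.slash_action_eq f _ (Subgroup.mem_map_of_mem (mapGL ℝ) γ.2)
  rw [h2] at h1
  exact h1.sub_eq_sub (FP_isPrim f) z UpperHalfPlane.I

theorem FP_hasEquivariantPrimitive (f : V) : HasEquivariantPrimitive N f (FP f) := by
  refine ⟨FP_isPrim f, FP_zero_at f, FP_equivariant f, fun δ => ?_⟩
  obtain ⟨M, hM0, hM⟩ := exists_isComPer N
  obtain ⟨G, hG, L, h⟩ := FP_comp_smul hM0 hM f δ
  refine ⟨L, ?_⟩
  have h1 : Tendsto (fun z => G z + L) atImInfty (𝓝 (0 + L)) := hG.2.2.add_const L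
  rw [zero_add] at h1
  exact h1.congr fun z => (h z).symm

theorem periodMap_apply (f : V) (γ : Gamma0 N) :
    periodMap N f (Additive.ofMul γ)
      = FP f ((γ : SL(2, ℤ)) • UpperHalfPlane.I) - FP f UpperHalfPlane.I := by
  obtain ⟨F₀, h₀, h⟩ := periodMap_def N f (FP_hasEquivariantPrimitive f)
  have hF : F₀ = FP f := decay_eq_of_isPrim h₀.2.1 (FP_zero_at f) h₀.1 (FP_isPrim f)
  subst hF
  rw [h]
  rfl

/-- the period map as a linear map -/
noncomputable def pml (N : ℕ) [NeZero N] :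
    CuspForm (Gamma0 N) 2 →ₗ[ℂ] (Additive (Gamma0 N) →+ ℂ) where
  toFun f := periodMap N f
  map_add' f g := by
    refine AddMonoidHom.ext fun γ => ?_
    obtain ⟨γ, rfl⟩ := Additive.ofMul.surjective γ
    rw [AddMonoidHom.add_apply, periodMap_apply, periodMap_apply, periodMap_apply, FP_add]
    simp only [Pi.add_apply]
    ring
  map_smul' c f := by
    refine AddMonoidHom.ext fun γ => ?_
    obtain ⟨γ, rfl⟩ := Additive.ofMul.surjective γ
    rw [RingHom.id_apply, AddMonoidHom.smul_apply, periodMap_apply, periodMap_apply, FP_smul]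
    simp only [Pi.smul_apply, smul_eq_mul]
    ring

theorem existsPeriodMapLinear (N : ℕ) [NeZero N] : ExistsPeriodMapLinear N :=
  ⟨pml N, fun _ => rfl⟩

/-- shorthand for the period of `f` along `γ` -/
noncomputable def per (f : V) (γ : Gamma0 N) : ℂ :=
  FP f ((γ : SL(2, ℤ)) • UpperHalfPlane.I) - FP f UpperHalfPlane.I

theorem FP_smul_sub (f : V) (γ : Gamma0 N) (z : ℍ) :
    FP f ((γ : SL(2, ℤ)) • z) - FP f z = per f γ :=
  (FP_equivariant f).sub_eq_period γ z

theorem periodHomPair_apply (f g : V) (γ : Gamma0 N) :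
    periodHomPair N (f, g) (Additive.ofMul γ)
      = per f γ + per f (jConjGamma0 N γ) + (per g γ - per g (jConjGamma0 N γ)) := by
  obtain ⟨p, hp, h⟩ := periodHomPair_def N (existsPeriodMapLinear N)
  rw [h]
  simp only [LinearMap.coprod_apply, LinearMap.comp_apply, LinearMap.add_apply, LinearMap.sub_apply,
    LinearMap.id_apply, AddMonoidHom.add_apply, AddMonoidHom.sub_apply, charInvolution_apply, hp,
    periodMap_apply, toMul_ofMul]
  rfl

end Fermat.Agent.S21Lib
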