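import Mathlib
import Fermat.Agent.S21.Prim

set_option autoImplicit false

namespace Fermat.Agent.S21Lib

open UpperHalfPlane hiding I
open Complex Filter Function Metric Set Matrix.SpecialLinearGroup CongruenceSubgroup
open Fermat.Agent.S22Lib ModularCurve ModularCurve.Period
open scoped Manifold Topology Real ModularForm MatrixGroups Pointwise

local notation "𝕢" => Periodic.qParam

variable {N : ℕ} [NeZero N]

local notation "V" => CuspForm (Gamma0 N) 2

theorem eq_zero_of_exp_const (f : V) (c : ℂ) (h : ∀ z : ℍ, Complex.exp (FP f z) = c) : f = 0 := by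
  ext τ
  have h1 : HasDerivAt (fun w : ℂ => Complex.exp ((FP f ∘ ofComplex) w))
      (Complex.exp ((FP f ∘ ofComplex) τ) * f τ) τ := (FP_isPrim f τ).cexp
  have h2 : (fun w : ℂ => Complex.exp ((FP f ∘ ofComplex) w)) = fun _ => c := funext fun w => h _
  rw [h2] at h1
  have h3 := h1.unique (hasDerivAt_const _ _)
  have := (mul_eq_zero.mp h3).resolve_left (Complex.exp_ne_zero _)
  simpa using this

/-- A weight two cusp form all of whose periods are purely imaginary vanishes. -/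
theorem eq_zero_of_re_per (f : V) (h : ∀ γ : Gamma0 N, (per f γ).re = 0) : f = 0 := by
  obtain ⟨M, hM0, hM⟩ := exists_isComPer N
  choose G hG L hGL using fun δ : SL(2, ℤ) => FP_comp_smul hM0 hM f δ
  set Ψ : SL(2, ℤ) → ℂ → ℂ := fun δ q => Complex.exp (cuspFunction M (G δ) q + L δ) with hΨ
  have hΨd : ∀ δ, DifferentiableOn ℂ (Ψ δ) (ball 0 1) := fun δ =>
    ((differentiableOn_cuspFunction_ball hM0 (hG δ).2.1 (hG δ).1
      (hG δ).2.2.isBoundedAtImInfty).add_const _).cexp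
  have hΨq : ∀ δ (z : ℍ), Ψ δ (𝕢 M z) = Complex.exp (FP f (δ • z)) := by
    intro δ z
    simp only [hΨ]
    rw [eq_cuspFunction z hM0.ne' (hG δ).2.1, hGL]
  have hinv : ∀ (γ : Gamma0 N) (z : ℍ),
      ‖Complex.exp (FP f ((γ : SL(2, ℤ)) • z))‖ = ‖Complex.exp (FP f z)‖ := by
    intro γ z
    rw [Complex.norm_exp, Complex.norm_exp]
    have := FP_smul_sub f γ z
    have h2 : FP f ((γ : SL(2, ℤ)) • z) = FP f z + per f γ := by rw [← this]; ring
    rw [h2, Complex.add_re, h γ, add_zero]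
  set r : ℝ := Real.exp (-π / M) with hr
  have hr0 : 0 ≤ r := (Real.exp_pos _).le
  have hr1 : r < 1 := by
    rw [hr, Real.exp_lt_one_iff]
    exact div_neg_of_neg_of_pos (by linarith [Real.pi_pos]) hM0
  have step1 : ∀ z : ℍ, ∃ x : SL(2, ℤ) ⧸ Gamma0 N, ∃ q ∈ closedBall (0 : ℂ) r,
      ‖Complex.exp (FP f z)‖ = ‖Ψ (x.out)⁻¹ q‖ := by
    intro z
    obtain ⟨g, hg⟩ := ModularGroup.exists_smul_mem_fd z
    refine ⟨(g : SL(2, ℤ) ⧸ Gamma0 N), 𝕢 M (g • z : ℍ), ?_, ?_⟩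
    · rw [mem_closedBall_zero_iff, Periodic.norm_qParam, hr]
      apply Real.exp_le_exp.mpr
      have h3 := ModularGroup.three_le_four_mul_im_sq_of_mem_fd hg
      have h4 : (1 : ℝ) / 2 ≤ (g • z).im := by
        by_contra hcon
        push Not at hcon
        nlinarith [(g • z).im_pos]
      rw [div_le_div_iff_of_pos_right hM0]
      have h5 : (((g • z : ℍ) : ℂ)).im = (g • z).im := rfl
      rw [h5]
      nlinarith [Real.pi_pos]
    · have hmem : ((g : SL(2, ℤ) ⧸ Gamma0 N).out)⁻¹ * g ∈ Gamma0 N :=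
        QuotientGroup.eq.mp (QuotientGroup.out_eq' _)
      rw [hΨq, ← mul_smul]
      exact (hinv ⟨_, hmem⟩ z).symm
  have hcomp : ∀ x : SL(2, ℤ) ⧸ Gamma0 N, ∃ q ∈ closedBall (0 : ℂ) r,
      IsMaxOn (fun q => ‖Ψ (x.out)⁻¹ q‖) (closedBall 0 r) q := fun x =>
    (isCompact_closedBall 0 r).exists_isMaxOn (nonempty_closedBall.mpr hr0)
      ((hΨd _).continuousOn.mono (closedBall_subset_ball hr1)).norm
  choose Q hQ hQmax using hcomp
  have : Finite (SL(2, ℤ) ⧸ Gamma0 N) := Subgroup.finite_quotient_of_finiteIndex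
  obtain ⟨x0, hx0⟩ := Finite.exists_max (fun x => ‖Ψ (x.out)⁻¹ (Q x)‖)
  have hbound : ∀ z : ℍ, ‖Complex.exp (FP f z)‖ ≤ ‖Ψ (x0.out)⁻¹ (Q x0)‖ := by
    intro z
    obtain ⟨x, q, hq, he⟩ := step1 z
    rw [he]
    exact (hQmax x hq).trans (hx0 x)
  set δ0 := (x0.out)⁻¹ with hδ0
  have hne : ∀ q ∈ ball (0 : ℂ) 1, q ≠ 0 → ‖Ψ δ0 q‖ ≤ ‖Ψ δ0 (Q x0)‖ := by
    intro q hq hq0
    have him : 0 < (Periodic.invQParam M q).im :=
      Periodic.im_invQParam_pos_of_norm_lt_one hM0 (by simpa using hq) hq0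
    have := hΨq δ0 ⟨_, him⟩
    rw [show ((⟨Periodic.invQParam M q, him⟩ : ℍ) : ℂ) = Periodic.invQParam M q from rfl,
      Periodic.qParam_right_inv hM0.ne' hq0] at this
    rw [this]; exact hbound _
  have hmax : IsMaxOn (norm ∘ Ψ δ0) (ball 0 1) (Q x0) := by
    intro q hq
    show ‖Ψ δ0 q‖ ≤ ‖Ψ δ0 (Q x0)‖
    by_cases hq0 : q = 0
    · subst hq0
      have hcont : ContinuousAt (fun q => ‖Ψ δ0 q‖) 0 :=
        ((hΨd δ0).differentiableAt (ball_mem_nhds 0 one_pos)).continuousAt.norm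
      have ht : Tendsto (fun q => ‖Ψ δ0 q‖) (𝓝[≠] 0) (𝓝 ‖Ψ δ0 0‖) :=
        hcont.tendsto.mono_left nhdsWithin_le_nhds
      refine le_of_tendsto ht ?_
      filter_upwards [self_mem_nhdsWithin, nhdsWithin_le_nhds (ball_mem_nhds 0 one_pos)] with q hq0 hq
      exact hne q hq hq0
    · exact hne q hq hq0
  have hconst := Complex.eq_const_of_exists_max (hΨd δ0) (closedBall_subset_ball hr1 (hQ x0)) hmax
  refine eq_zero_of_exp_const f (Ψ δ0 (Q x0)) fun z => ?_
  have h1 := hΨq δ0 (δ0⁻¹ • z)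
  rw [smul_inv_smul] at h1
  rw [← h1]
  exact hconst (by simpa using Periodic.norm_qParam_lt_one hM0 (δ0⁻¹ • z).im_pos)

end Fermat.Agent.S21Lib
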