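import Mathlib
import Fermat.Agent.S21.MaxMod

set_option autoImplicit false

namespace Fermat.Agent.S21Lib

open UpperHalfPlane hiding I
open Complex Filter Function Metric Set Matrix.SpecialLinearGroup CongruenceSubgroup
open Fermat.Agent.S22Lib ModularCurve ModularCurve.Period
open scoped Manifold Topology Real ModularForm MatrixGroups Pointwise ComplexConjugate

variable {N : ℕ} [NeZero N]

local notation "V" => CuspForm (Gamma0 N) 2

theorem J_mul_mapGL (γ : SL(2, ℤ)) :
    J * (mapGL ℝ γ : GL (Fin 2) ℝ) = mapGL ℝ (jConjSL γ) * J := by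
  ext i j
  fin_cases i <;> fin_cases j <;>
    simp [Matrix.mul_apply, Fin.sum_univ_two, jConjMat]

theorem J_inv : (J : GL (Fin 2) ℝ)⁻¹ = J := by
  rw [inv_eq_iff_mul_eq_one, ← sq, J_sq]

theorem Gamma0_le_conj (N : ℕ) :
    (Gamma0 N : Subgroup (GL (Fin 2) ℝ)) ≤
      ConjAct.toConjAct (J : GL (Fin 2) ℝ)⁻¹ • (Gamma0 N : Subgroup (GL (Fin 2) ℝ)) := by
  rintro _ ⟨γ, hγ, rfl⟩
  rw [Subgroup.mem_pointwise_smul_iff_inv_smul_mem, ← map_inv, inv_inv, ConjAct.toConjAct_smul,
    J_mul_mapGL, mul_assoc, mul_inv_cancel, mul_one]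
  exact ⟨_, jConjSL_mem_Gamma0 hγ, rfl⟩

/-- the cusp form `z ↦ conj (f (-conj z))`. -/
noncomputable def conjForm (f : V) : V where
  toFun := ⇑f ∣[(2 : ℤ)] J
  slash_action_eq' γ hγ := (CuspForm.translate f J).slash_action_eq' γ (Gamma0_le_conj N hγ)
  holo' := (CuspFormClass.holo f).slash 2 J
  zero_at_cusps' hc := (CuspForm.translate f J).zero_at_cusps' (hc.mono (Gamma0_le_conj N))

omit [NeZero N] in
theorem conjForm_apply (f : V) (z : ℍ) : conjForm f z = conj (f (J • z)) := by
  show (⇑f ∣[(2 : ℤ)] J) z = _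
  rw [ModularForm.slash_apply]
  simp

theorem J_smul_J_smul (z : ℍ) : J • (J • z) = z := by
  rw [← mul_smul, ← sq, J_sq, one_smul]

theorem J_smul_I : J • UpperHalfPlane.I = UpperHalfPlane.I := by
  apply UpperHalfPlane.ext
  rw [coe_J_smul]
  simp

theorem FP_conjForm (f : V) (z : ℍ) : FP (conjForm f) z = -conj (FP f (J • z)) := by
  have hp : IsPrim (fun z => -conj (FP f (J • z))) (conjForm f) := by
    intro τ
    have h1 := FP_isPrim f (J • τ)
    rw [coe_J_smul] at h1
    have h2 : HasDerivAt (fun w => (FP f ∘ ofComplex) (-w)) (-(f (J • τ))) (conj (τ : ℂ)) := by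
      have := HasDerivAt.comp (conj (τ : ℂ)) (h₂ := FP f ∘ ofComplex) (h := fun w => -w) h1
        (hasDerivAt_neg _)
      rw [mul_neg_one] at this
      exact this
    have h3 := h2.conj_conj
    rw [Complex.conj_conj] at h3
    have h4 := h3.neg
    refine (h4.congr_deriv ?_).congr_of_eventuallyEq ?_
    · rw [conjForm_apply]; simp
    · filter_upwards [isOpen_upperHalfPlaneSet.mem_nhds τ.im_pos] with w hw
      simp only [comp_apply, Pi.neg_apply]
      congr 3
      apply UpperHalfPlane.ext
      rw [coe_J_smul, ofComplex_apply_of_im_pos hw, ofComplex_apply_of_im_pos (by simpa using hw)]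
  have hz : IsZeroAtImInfty (fun z => -conj (FP f (J • z))) := by
    have h1 : Tendsto (fun z : ℍ => FP f (J • z)) atImInfty (𝓝 0) :=
      (FP_zero_at f).comp (tendsto_smul_atImInfty (by simp))
    have h2 := ((Complex.continuous_conj.tendsto 0).comp h1).neg
    simpa [IsZeroAtImInfty, ZeroAtFilter] using h2
  exact congrFun (decay_eq_of_isPrim (FP_zero_at _) hz (FP_isPrim _) hp) z

theorem per_conjForm (f : V) (γ : Gamma0 N) :
    per (conjForm f) γ = -conj (per f (jConjGamma0 N γ)) := by
  unfold per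
  rw [FP_conjForm, FP_conjForm, J_smul_I]
  have h : J • ((γ : SL(2, ℤ)) • UpperHalfPlane.I)
      = ((jConjGamma0 N γ : Gamma0 N) : SL(2, ℤ)) • UpperHalfPlane.I := by
    have h1 : J • ((γ : SL(2, ℤ)) • UpperHalfPlane.I)
        = (J * (mapGL ℝ (γ : SL(2, ℤ)) : GL (Fin 2) ℝ)) • UpperHalfPlane.I := by
      rw [mul_smul]; rfl
    rw [h1, J_mul_mapGL, mul_smul, J_smul_I]
    rfl
  rw [h, map_sub]
  ring

theorem per_add (f g : V) (γ : Gamma0 N) : per (f + g) γ = per f γ + per g γ := by
  unfold per; rw [FP_add]; simp only [Pi.add_apply]; ring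

theorem per_smul (c : ℂ) (f : V) (γ : Gamma0 N) : per (c • f) γ = c * per f γ := by
  unfold per; rw [FP_smul]; simp only [Pi.smul_apply, smul_eq_mul]; ring

theorem per_sub (f g : V) (γ : Gamma0 N) : per (f - g) γ = per f γ - per g γ := by
  rw [sub_eq_add_neg, per_add, ← neg_one_smul ℂ g, per_smul]; ring

theorem injective_periodHomPair (N : ℕ) [NeZero N] : Function.Injective (periodHomPair N) := by
  rw [injective_iff_map_eq_zero]
  rintro ⟨f, g⟩ hfg
  have h0 : ∀ γ : Gamma0 N, per (f + g) γ + per (f - g) (jConjGamma0 N γ) = 0 := by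
    intro γ
    have := congrArg (fun φ : Additive (Gamma0 N) →+ ℂ => φ (Additive.ofMul γ)) hfg
    simp only [periodHomPair_apply, AddMonoidHom.zero_apply] at this
    rw [per_add, per_sub]
    linear_combination this
  set h1 := f + g with hh1
  set h2 := f - g with hh2
  have e1 : ∀ γ : Gamma0 N, per h1 γ = conj (per (conjForm h2) γ) := by
    intro γ
    rw [per_conjForm, map_neg, Complex.conj_conj]
    linear_combination h0 γ
  have hA : h1 - conjForm h2 = 0 := by
    refine eq_zero_of_re_per _ fun γ => ?_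
    rw [per_sub, e1]
    simp
  have hB : Complex.I • (h1 + conjForm h2) = 0 := by
    refine eq_zero_of_re_per _ fun γ => ?_
    rw [per_smul, per_add, e1]
    simp
  have hB' : h1 + conjForm h2 = 0 := (smul_eq_zero.mp hB).resolve_left Complex.I_ne_zero
  have hh1z : h1 = 0 := by
    have : (2 : ℂ) • h1 = 0 := by
      have : (2 : ℂ) • h1 = (h1 - conjForm h2) + (h1 + conjForm h2) := by
        rw [two_smul]; abel
      rw [this, hA, hB', add_zero]
    exact (smul_eq_zero.mp this).resolve_left two_ne_zero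
  have hc : conjForm h2 = 0 := by rw [hh1z, zero_add] at hB'; exact hB'
  have hh2z : h2 = 0 := by
    ext w
    have := congrArg (fun φ : CuspForm (Gamma0 N) 2 => φ (J • w)) hc
    simp only [conjForm_apply, J_smul_J_smul] at this
    simpa using this
  have hf : f = 0 := by
    have : (2 : ℂ) • f = 0 := by
      have : (2 : ℂ) • f = h1 + h2 := by rw [hh1, hh2, two_smul]; abel
      rw [this, hh1z, hh2z, add_zero]
    exact (smul_eq_zero.mp this).resolve_left two_ne_zero
  have hg : g = 0 := by
    have : f + g = 0 := hh1z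
    rwa [hf, zero_add] at this
  rw [hf, hg]
  rfl

end Fermat.Agent.S21Lib
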