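import Mathlib
import Fermat.Agent.S21.Prim

set_option autoImplicit false

namespace Fermat.Agent.S21Lib

open UpperHalfPlane hiding I
open Complex Filter Function Metric Set Matrix.SpecialLinearGroup CongruenceSubgroup
open Fermat.Agent.S22Lib ModularCurve ModularCurve.Period
open scoped Manifold Topology Real ModularForm MatrixGroups Pointwise

/-- an element of `SL₂(ℤ)` of trace `±2` is conjugate to an upper triangular matrix. -/
theorem exists_conj_upper (γ : SL(2, ℤ))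
    (h : (γ : Matrix (Fin 2) (Fin 2) ℤ).trace ^ 2 = 4) :
    ∃ δ : SL(2, ℤ), (δ⁻¹ * γ * δ) 1 0 = 0 := by
  have hdet : γ 0 0 * γ 1 1 - γ 0 1 * γ 1 0 = 1 := by
    have := γ.det_coe
    rwa [Matrix.det_fin_two] at this
  rw [Matrix.trace_fin_two] at h
  by_cases hc : γ 1 0 = 0
  · exact ⟨1, by simpa using hc⟩
  have hg : 0 < Int.gcd (γ 0 0 - γ 1 1) (2 * γ 1 0) :=
    Int.gcd_pos_of_ne_zero_right _ (by simpa using hc)
  obtain ⟨x, y, hxy, hx, hy⟩ := Int.exists_gcd_one hg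
  set g : ℤ := (Int.gcd (γ 0 0 - γ 1 1) (2 * γ 1 0) : ℤ) with hgdef
  have hg0 : g ≠ 0 := by rw [hgdef]; exact_mod_cast hg.ne'
  obtain ⟨u, v, huv⟩ := Int.isCoprime_iff_gcd_eq_one.mpr hxy
  refine ⟨⟨!![x, -v; y, u], by rw [Matrix.det_fin_two_of]; linarith⟩, ?_⟩
  have key : γ 1 0 * x ^ 2 + (γ 1 1 - γ 0 0) * x * y - γ 0 1 * y ^ 2 = 0 := by
    have h1 : g ^ 2 * (2 * (γ 1 0 * x ^ 2 + (γ 1 1 - γ 0 0) * x * y - γ 0 1 * y ^ 2)) = 0 := by
      have e1 : g * x = γ 0 0 - γ 1 1 := by rw [hx]; ring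
      have e2 : g * y = 2 * γ 1 0 := by rw [hy]; ring
      have : g ^ 2 * (2 * (γ 1 0 * x ^ 2 + (γ 1 1 - γ 0 0) * x * y - γ 0 1 * y ^ 2))
          = 2 * γ 1 0 * (g * x) ^ 2 + 2 * (γ 1 1 - γ 0 0) * (g * x) * (g * y)
            - 2 * γ 0 1 * (g * y) ^ 2 := by ring
      rw [this, e1, e2]
      linear_combination (-2 * γ 1 0) * h + (8 * γ 1 0) * hdet
    have h2 := (mul_eq_zero.mp h1).resolve_left (pow_ne_zero 2 hg0)
    omega
  rw [Matrix.SpecialLinearGroup.SL2_inv_expl]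
  simp [Matrix.mul_apply, Fin.sum_univ_two]
  linear_combination key

variable {N : ℕ} [NeZero N]

local notation "V" => CuspForm (Gamma0 N) 2

theorem per_eq_zero_of_parabolic (f : V) (γ : Gamma0 N)
    (h : ((γ : SL(2, ℤ)) : Matrix (Fin 2) (Fin 2) ℤ).trace ^ 2 = 4) : per f γ = 0 := by
  obtain ⟨δ, hδ⟩ := exists_conj_upper (γ : SL(2, ℤ)) h
  obtain ⟨L, hL⟩ := (FP_hasEquivariantPrimitive f).2.2.2 δ
  set γ' : SL(2, ℤ) := δ⁻¹ * γ * δ with hγ'
  have h1 : Tendsto (fun τ : ℍ => γ' • τ) atImInfty atImInfty := by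
    have : (mapGL ℝ γ' : GL (Fin 2) ℝ) 1 0 = 0 := by simp [hδ]
    exact tendsto_smul_atImInfty this
  have h2 : Tendsto (fun w : ℍ => FP f (δ • (γ' • w)) - FP f (δ • w)) atImInfty (𝓝 (L - L)) :=
    (hL.comp h1).sub hL
  have h3 : ∀ w : ℍ, FP f (δ • (γ' • w)) - FP f (δ • w) = per f γ := by
    intro w
    rw [← FP_smul_sub f γ (δ • w), ← mul_smul, ← mul_smul, hγ']
    congr 3
    group
  simp only [h3, sub_self] at h2
  exact tendsto_nhds_unique tendsto_const_nhds h2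

theorem pml_mem_parabolicHoms (f : V) : pml N f ∈ parabolicHoms ℂ (Gamma0 N) ℂ := by
  rw [mem_parabolicHoms_iff]
  intro γ hγ
  show periodMap N f (Additive.ofMul γ) = 0
  rw [periodMap_apply]
  exact per_eq_zero_of_parabolic f γ hγ

theorem range_periodHomPair_le (N : ℕ) [NeZero N] :
    LinearMap.range (periodHomPair N) ≤ parabolicHoms ℂ (Gamma0 N) ℂ := by
  rintro _ ⟨⟨f, g⟩, rfl⟩
  rw [mem_parabolicHoms_iff]
  intro γ hγ
  have hγ' : (((jConjGamma0 N γ : Gamma0 N) : SL(2, ℤ)) : Matrix (Fin 2) (Fin 2) ℤ).trace ^ 2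
      = 4 := by
    rw [jConjGamma0_coe, jConjSL_coe, jConjMat_trace]; exact hγ
  rw [periodHomPair_apply, per_eq_zero_of_parabolic f γ hγ, per_eq_zero_of_parabolic g γ hγ,
    per_eq_zero_of_parabolic f _ hγ', per_eq_zero_of_parabolic g _ hγ']
  simp

end Fermat.Agent.S21Lib
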