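import Mathlib
import Fermat.Agent.S21.Inj
import Fermat.Agent.S21.Parabolic

set_option autoImplicit false

namespace Fermat.Agent.S21Lib

open CongruenceSubgroup ModularCurve ModularCurve.Period
open scoped MatrixGroups

/-- Eichler–Shimura from the dimension bound for parabolic homomorphisms. -/
theorem eichlerShimura_of_finrank_le (N : ℕ) [NeZero N]
    (hfin : FiniteDimensional ℂ (parabolicHoms ℂ (Gamma0 N) ℂ))
    (hle : Module.finrank ℂ (parabolicHoms ℂ (Gamma0 N) ℂ)
      ≤ 2 * Module.finrank ℂ (CuspForm (Gamma0 N) 2)) :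
    Function.Injective (periodHomPair N)
      ∧ LinearMap.range (periodHomPair N) = parabolicHoms ℂ (Gamma0 N) ℂ := by
  have hinj := injective_periodHomPair N
  have hr := range_periodHomPair_le N
  refine ⟨hinj, ?_⟩
  let T : (CuspForm (Gamma0 N) 2 × CuspForm (Gamma0 N) 2) →ₗ[ℂ] parabolicHoms ℂ (Gamma0 N) ℂ :=
    (periodHomPair N).codRestrict _ fun x => hr ⟨x, rfl⟩
  have hT : Function.Injective T := fun a b hab => hinj (congrArg Subtype.val hab)
  have hfd : FiniteDimensional ℂ (CuspForm (Gamma0 N) 2 × CuspForm (Gamma0 N) 2) :=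
    FiniteDimensional.of_injective T hT
  have hfd1 : FiniteDimensional ℂ (CuspForm (Gamma0 N) 2) :=
    FiniteDimensional.of_injective (LinearMap.inl ℂ _ (CuspForm (Gamma0 N) 2)) LinearMap.inl_injective
  refine Submodule.eq_of_le_of_finrank_le hr ?_
  rw [LinearMap.finrank_range_of_inj hinj, Module.finrank_prod]
  omega

end Fermat.Agent.S21Lib
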