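import Mathlib
import Fermat.Agent.S20.EigenCount

/-!
# An abstract dimension bound for "parabolic" crossed homomorphisms (helper for S21)
-/

set_option autoImplicit false

namespace Fermat.Agent.S21Lib

open Fermat.Agent.S20Lib

section basic

variable {G X : Type} [Group G] [MulAction G X]

theorem permOp_mul (g h : G) : permOp (X := X) (g * h) = permOp h * permOp g := by
  refine LinearMap.ext fun v => funext fun x => ?_
  show v ((g * h) • x) = v (g • h • x)
  rw [mul_smul]

theorem permOp_one : permOp (X := X) (1 : G) = 1 := by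
  refine LinearMap.ext fun v => funext fun x => ?_
  show v ((1 : G) • x) = v x
  rw [one_smul]

theorem permOp_pow (g : G) (k : ℕ) : permOp (X := X) (g ^ k) = (permOp g) ^ k := by
  induction k with
  | zero => rw [pow_zero, pow_zero, permOp_one]
  | succ k ih => rw [pow_succ, permOp_mul, ih, pow_succ']

theorem permOp_eq_one_of_trivial {g : G} (hg : ∀ x : X, g • x = x) : permOp (X := X) g = 1 := by
  refine LinearMap.ext fun v => funext fun x => ?_
  show v (g • x) = v x
  rw [hg]

/-- The norm operator `1 + P + ⋯ + P^(n-1)`. -/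
noncomputable def normOp (g : G) (n : ℕ) : Module.End ℂ (X → ℂ) :=
  ∑ k ∈ Finset.range n, (permOp g) ^ k

theorem normOp_mul_permOp {g : G} {n : ℕ} (hg : (permOp (X := X) g) ^ n = 1) :
    normOp (X := X) g n * permOp g = normOp g n := by
  have h := geom_sum_mul (permOp (X := X) g) n
  rw [hg, sub_self, mul_sub, mul_one, sub_eq_zero] at h
  exact h

theorem permOp_mul_normOp {g : G} {n : ℕ} (hg : (permOp (X := X) g) ^ n = 1) :
    permOp g * normOp (X := X) g n = normOp g n := by
  have h := mul_geom_sum (permOp (X := X) g) n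
  rw [hg, sub_self, sub_mul, one_mul, sub_eq_zero] at h
  exact h

theorem normOp_apply_of_fixed {g : G} {v : X → ℂ} (hv : permOp g v = v) (n : ℕ) :
    normOp g n v = (n : ℂ) • v := by
  have hk : ∀ k : ℕ, ((permOp (X := X) g) ^ k) v = v := by
    intro k
    induction k with
    | zero => rfl
    | succ k ih => rw [pow_succ, Module.End.mul_apply, hv, ih]
  rw [normOp, LinearMap.sum_apply, Finset.sum_congr rfl (fun k _ => hk k), Finset.sum_const,
    Finset.card_range, Nat.cast_smul_eq_nsmul]

theorem range_normOp {g : G} {n : ℕ} (hn : 0 < n) (hg : (permOp (X := X) g) ^ n = 1) :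
    LinearMap.range (normOp (X := X) g n) = LinearMap.eqLocus (permOp (X := X) g) LinearMap.id := by
  apply le_antisymm
  · rintro _ ⟨v, rfl⟩
    show permOp g (normOp g n v) = normOp g n v
    rw [← Module.End.mul_apply, permOp_mul_normOp hg]
  · intro v hv
    have hv' : permOp g v = v := hv
    refine ⟨(n : ℂ)⁻¹ • v, ?_⟩
    rw [map_smul, normOp_apply_of_fixed hv', smul_smul, inv_mul_cancel₀, one_smul]
    exact_mod_cast hn.ne'

theorem finrank_ker_normOp [Fintype X] {g : G} {n : ℕ} (hn : 0 < n)
    (hg : (permOp (X := X) g) ^ n = 1) :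
    Module.finrank ℂ (LinearMap.ker (normOp (X := X) g n))
      + Nat.card (MulAction.orbitRel.Quotient (Subgroup.zpowers g) X) = Fintype.card X := by
  have h := LinearMap.finrank_range_add_finrank_ker (normOp (X := X) g n)
  rw [range_normOp hn hg, finrank_invariants, Module.finrank_fintype_fun_eq_card] at h
  omega

/-- `(1 - P) v` is killed by the norm operator. -/
theorem sub_permOp_mem_ker {g : G} {n : ℕ} (hg : (permOp (X := X) g) ^ n = 1) (v : X → ℂ) :
    v - permOp g v ∈ LinearMap.ker (normOp (X := X) g n) := by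
  rw [LinearMap.mem_ker, map_sub, ← Module.End.mul_apply, normOp_mul_permOp hg, sub_self]

/-- Crossed homomorphisms `G → (X → ℂ)` (for the right action `v ↦ v ∘ (g • ·)`). -/
def IsCrossed (a : G → X → ℂ) : Prop := ∀ g h, a (g * h) = permOp h (a g) + a h

theorem IsCrossed.one {a : G → X → ℂ} (ha : IsCrossed a) : a 1 = 0 := by
  have h := ha 1 1
  rw [mul_one, permOp_one, Module.End.one_apply] at h
  have h2 : a 1 + 0 = a 1 + a 1 := by rw [add_zero]; exact h
  exact (add_left_cancel h2).symm

theorem IsCrossed.pow {a : G → X → ℂ} (ha : IsCrossed a) (g : G) (n : ℕ) :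
    a (g ^ n) = normOp g n (a g) := by
  induction n with
  | zero => rw [pow_zero, ha.one, normOp, Finset.range_zero, Finset.sum_empty]; rfl
  | succ k ih =>
    rw [pow_succ, ha, ih, normOp, normOp, Finset.sum_range_succ', LinearMap.add_apply, pow_zero,
      Module.End.one_apply, LinearMap.sum_apply, LinearMap.sum_apply, map_sum]
    congr 1
    refine Finset.sum_congr rfl fun j _ => ?_
    rw [pow_succ', Module.End.mul_apply]

theorem IsCrossed.add {a c : G → X → ℂ} (ha : IsCrossed a) (hc : IsCrossed c) :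
    IsCrossed (fun g => a g + c g) := by
  intro g h
  show a (g * h) + c (g * h) = permOp h (a g + c g) + (a h + c h)
  rw [ha, hc, map_add]
  abel

theorem isCrossed_cobound (v : X → ℂ) : IsCrossed (fun g : G => permOp g v - v) := by
  intro g h
  show permOp (g * h) v - v = permOp h (permOp g v - v) + (permOp h v - v)
  rw [permOp_mul, Module.End.mul_apply, map_sub]
  abel

theorem IsCrossed.eq_zero_of_closure {a : G → X → ℂ} (ha : IsCrossed a) {s : Set G}
    (hs : Subgroup.closure s = ⊤) (h : ∀ g ∈ s, a g = 0) (g : G) : a g = 0 := by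
  let H : Subgroup G :=
    { carrier := {g | a g = 0}
      mul_mem' := by
        intro x y hx hy
        show a (x * y) = 0
        rw [ha, show a x = 0 from hx, show a y = 0 from hy, map_zero, add_zero]
      one_mem' := ha.one
      inv_mem' := by
        intro x hx
        show a x⁻¹ = 0
        have h1 := ha x x⁻¹
        rw [mul_inv_cancel, ha.one, show a x = 0 from hx, map_zero, zero_add] at h1
        exact h1.symm }
  have hH : Subgroup.closure s ≤ H := (Subgroup.closure_le H).mpr h
  rw [hs] at hH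
  exact hH (Subgroup.mem_top g)

theorem permOp_single [DecidableEq X] (g : G) (y : X) :
    permOp g (Pi.single y (1 : ℂ)) = Pi.single (g⁻¹ • y) (1 : ℂ) := by
  funext x
  rw [permOp_apply, Pi.single_apply, Pi.single_apply]
  by_cases h : g • x = y
  · rw [if_pos h, if_pos (by rw [← h, inv_smul_smul])]
  · rw [if_neg h, if_neg (fun h' => h (by rw [h', smul_inv_smul]))]

/-- Functions of total sum zero lie in `(1 - P_S) V + (1 - P_U) V` when `S, U` generate a
transitive group. -/
theorem exists_of_sum_eq_zero [Fintype X] [MulAction.IsPretransitive G X] {S U : G}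
    (hgen : Subgroup.closure {S, U} = ⊤) (w : X → ℂ) (hw : ∑ x, w x = 0) :
    ∃ v₁ v₂ : X → ℂ, w = (v₁ - permOp S v₁) + (v₂ - permOp U v₂) := by
  classical
  let M : Submodule ℂ (X → ℂ) :=
    LinearMap.range (1 - permOp (X := X) S) ⊔ LinearMap.range (1 - permOp (X := X) U)
  suffices hM : w ∈ M by
    obtain ⟨_, ⟨v₁, rfl⟩, _, ⟨v₂, rfl⟩, h⟩ := Submodule.mem_sup.mp hM
    exact ⟨v₁, v₂, h.symm⟩
  let H : Subgroup G :=
    { carrier := {g | ∀ y : X, (Pi.single y (1 : ℂ) - Pi.single (g • y) (1 : ℂ) : X → ℂ) ∈ M}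
      mul_mem' := by
        intro a c ha hc y
        have h1 := hc y
        have h2 := ha (c • y)
        have := M.add_mem h1 h2
        rw [mul_smul]
        convert this using 1
        abel
      one_mem' := by
        intro y
        rw [one_smul, sub_self]
        exact M.zero_mem
      inv_mem' := by
        intro a ha y
        have h1 := ha (a⁻¹ • y)
        rw [smul_inv_smul] at h1
        have := M.neg_mem h1
        convert this using 1
        abel }
  have hS : S ∈ H := by
    rw [← inv_inv S]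
    apply H.inv_mem
    intro y
    apply Submodule.mem_sup_left
    refine ⟨Pi.single y 1, ?_⟩
    rw [LinearMap.sub_apply, Module.End.one_apply, permOp_single]
  have hU : U ∈ H := by
    rw [← inv_inv U]
    apply H.inv_mem
    intro y
    apply Submodule.mem_sup_right
    refine ⟨Pi.single y 1, ?_⟩
    rw [LinearMap.sub_apply, Module.End.one_apply, permOp_single]
  have hH : ∀ g : G, g ∈ H := by
    have h1 : Subgroup.closure {S, U} ≤ H := by
      rw [Subgroup.closure_le]
      rintro g (rfl | rfl)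
      · exact hS
      · exact hU
    rw [hgen] at h1
    exact fun g => h1 (Subgroup.mem_top g)
  rcases isEmpty_or_nonempty X with hX | ⟨⟨x₀⟩⟩
  · have : w = 0 := funext fun x => (hX.false x).elim
    rw [this]; exact M.zero_mem
  · have hw' : w = ∑ x, w x • (Pi.single x (1 : ℂ) - Pi.single x₀ (1 : ℂ) : X → ℂ) := by
      have h1 : w = ∑ x, w x • (Pi.single x (1 : ℂ) : X → ℂ) := by
        funext y
        simp [Finset.sum_apply, Pi.single_apply]
      have h2 : ∑ x, w x • (Pi.single x₀ (1 : ℂ) : X → ℂ) = 0 := by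
        rw [← Finset.sum_smul, hw, zero_smul]
      simp only [smul_sub, Finset.sum_sub_distrib]
      rw [h2, sub_zero]
      exact h1
    rw [hw']
    apply Submodule.sum_mem
    intro x _
    apply Submodule.smul_mem
    obtain ⟨g, hg⟩ := MulAction.exists_smul_eq G x x₀
    have := hH g x
    rwa [hg] at this

end basic

section main

variable {G X : Type} [Group G] [MulAction G X] [Fintype X] [MulAction.IsPretransitive G X]

theorem finrank_fixed_inf_ker_sum (T : G) :
    Nat.card (MulAction.orbitRel.Quotient (Subgroup.zpowers T) X) ≤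
      Module.finrank ℂ (LinearMap.eqLocus (permOp (X := X) T) LinearMap.id ⊓
        LinearMap.ker (∑ x : X, LinearMap.proj (R := ℂ) (φ := fun _ : X => ℂ) x) :
          Submodule ℂ (X → ℂ)) + 1 := by
  set R := LinearMap.eqLocus (permOp (X := X) T) LinearMap.id with hR
  set sm : (X → ℂ) →ₗ[ℂ] ℂ := ∑ x : X, LinearMap.proj (R := ℂ) (φ := fun _ : X => ℂ) x with hsm
  have h1 := Submodule.finrank_sup_add_finrank_inf_eq R (LinearMap.ker sm)
  have h2 := LinearMap.finrank_range_add_finrank_ker sm
  have h3 : Module.finrank ℂ (LinearMap.range sm) ≤ 1 := by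
    have := Submodule.finrank_le (LinearMap.range sm)
    rwa [Module.finrank_self] at this
  have h4 : Module.finrank ℂ (R ⊔ LinearMap.ker sm : Submodule ℂ (X → ℂ))
      ≤ Module.finrank ℂ (X → ℂ) := Submodule.finrank_le _
  have h5 : Module.finrank ℂ R = Nat.card (MulAction.orbitRel.Quotient (Subgroup.zpowers T) X) :=
    finrank_invariants T
  omega

theorem crossed_bound {Hp : Type*} [AddCommGroup Hp] [Module ℂ Hp]
    (A : Hp →ₗ[ℂ] (G → X → ℂ)) (S T : G) (n : ℕ) (hn : 0 < n)
    (hgen : Subgroup.closure {S, T} = ⊤)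
    (hS : ∀ x : X, (S ^ 2) • x = x) (hU : ∀ x : X, ((S * T) ^ 3) • x = x)
    (hT : ∀ x : X, (T ^ n) • x = x)
    (hcr : ∀ ψ, IsCrossed (A ψ))
    (hAS : ∀ ψ, A ψ (S ^ 2) = 0) (hAU : ∀ ψ, A ψ ((S * T) ^ 3) = 0) (hAT : ∀ ψ, A ψ (T ^ n) = 0)
    (hinj : ∀ ψ (v : X → ℂ), (∀ g, A ψ g = permOp g v - v) → ψ = 0) :
    FiniteDimensional ℂ Hp ∧
    Module.finrank ℂ Hp + Nat.card (MulAction.orbitRel.Quotient (Subgroup.zpowers S) X)
      + Nat.card (MulAction.orbitRel.Quotient (Subgroup.zpowers (S * T)) X)
      + Nat.card (MulAction.orbitRel.Quotient (Subgroup.zpowers T) X) ≤ 2 + Fintype.card X := by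
  classical
  have hPS : (permOp (X := X) S) ^ 2 = 1 := by rw [← permOp_pow, permOp_eq_one_of_trivial hS]
  have hPU : (permOp (X := X) (S * T)) ^ 3 = 1 := by
    rw [← permOp_pow, permOp_eq_one_of_trivial hU]
  have hPT : (permOp (X := X) T) ^ n = 1 := by rw [← permOp_pow, permOp_eq_one_of_trivial hT]
  have hgen' : Subgroup.closure {S, S * T} = (⊤ : Subgroup G) := by
    rw [eq_top_iff, ← hgen, Subgroup.closure_le]
    rintro g (rfl | rfl)
    · exact Subgroup.subset_closure (Set.mem_insert _ _)
    · have h1 : g ∈ Subgroup.closure {S, S * g} → True := fun _ => trivial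
      have hS' : S ∈ Subgroup.closure {S, S * g} := Subgroup.subset_closure (Set.mem_insert _ _)
      have hU' : S * g ∈ Subgroup.closure {S, S * g} :=
        Subgroup.subset_closure (Set.mem_insert_of_mem _ rfl)
      have := Subgroup.mul_mem _ (Subgroup.inv_mem _ hS') hU'
      rwa [inv_mul_cancel_left] at this
  -- the total crossed homomorphism
  let θ : G → (Hp × (X → ℂ)) →ₗ[ℂ] (X → ℂ) := fun g =>
    (LinearMap.proj g ∘ₗ A) ∘ₗ LinearMap.fst ℂ Hp (X → ℂ)
      + (permOp g - 1) ∘ₗ LinearMap.snd ℂ Hp (X → ℂ)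
  have hθ : ∀ g p, θ g p = A p.1 g + (permOp g p.2 - p.2) := fun g p => rfl
  have hθcr : ∀ p, IsCrossed (fun g => θ g p) := by
    intro p
    exact (hcr p.1).add (isCrossed_cobound p.2)
  have hθS : ∀ p, θ S p ∈ LinearMap.ker (normOp (X := X) S 2) := by
    intro p
    rw [LinearMap.mem_ker, ← (hθcr p).pow S 2]
    show θ (S ^ 2) p = 0
    rw [hθ, hAS, permOp_eq_one_of_trivial hS, Module.End.one_apply, sub_self, add_zero]
  have hθU : ∀ p, θ (S * T) p ∈ LinearMap.ker (normOp (X := X) (S * T) 3) := by
    intro p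
    rw [LinearMap.mem_ker, ← (hθcr p).pow (S * T) 3]
    show θ ((S * T) ^ 3) p = 0
    rw [hθ, hAU, permOp_eq_one_of_trivial hU, Module.End.one_apply, sub_self, add_zero]
  have hθT : ∀ p, normOp (X := X) T n (θ T p) = 0 := by
    intro p
    rw [← (hθcr p).pow T n]
    show θ (T ^ n) p = 0
    rw [hθ, hAT, permOp_eq_one_of_trivial hT, Module.End.one_apply, sub_self, add_zero]
  set KS := LinearMap.ker (normOp (X := X) S 2) with hKS
  set KU := LinearMap.ker (normOp (X := X) (S * T) 3) with hKU
  let Θ : (Hp × (X → ℂ)) →ₗ[ℂ] (KS × KU) :=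
    ((θ S).codRestrict KS hθS).prod ((θ (S * T)).codRestrict KU hθU)
  let lam : (KS × KU) →ₗ[ℂ] (X → ℂ) :=
    normOp (X := X) T n ∘ₗ (KU.subtype ∘ₗ LinearMap.snd ℂ KS KU - KS.subtype ∘ₗ LinearMap.fst ℂ KS KU)
  -- (c1)
  have c1 : LinearMap.range Θ ≤ LinearMap.ker lam := by
    rintro _ ⟨p, rfl⟩
    rw [LinearMap.mem_ker]
    show normOp (X := X) T n (θ (S * T) p - θ S p) = 0
    have h1 : θ (S * T) p = permOp T (θ S p) + θ T p := hθcr p S T
    rw [h1, map_sub, map_add, ← Module.End.mul_apply, normOp_mul_permOp hPT, hθT]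
    simp
  -- (c3)
  have hker : ∀ p, Θ p = 0 → p.1 = 0 ∧ ∀ x y, p.2 x = p.2 y := by
    intro p hp
    have h1 : θ S p = 0 := congrArg (fun q : KS × KU => (q.1 : X → ℂ)) hp
    have h2 : θ (S * T) p = 0 := congrArg (fun q : KS × KU => (q.2 : X → ℂ)) hp
    have h3 : ∀ g, θ g p = 0 := by
      apply (hθcr p).eq_zero_of_closure hgen'
      rintro g (rfl | rfl)
      · exact h1
      · exact h2
    have h4 : p.1 = 0 := by
      apply hinj p.1 (-p.2)
      intro g
      have := h3 g
      rw [hθ] at this
      rw [map_neg]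
      linear_combination (exp := 1) this
    refine ⟨h4, fun x y => ?_⟩
    obtain ⟨g, hg⟩ := MulAction.exists_smul_eq G y x
    have := h3 g
    rw [hθ, h4, map_zero] at this
    have h5 := congrFun this y
    simp only [Pi.add_apply, Pi.sub_apply, Pi.zero_apply, permOp_apply, hg, zero_add] at h5
    exact sub_eq_zero.mp h5
  have hfd : FiniteDimensional ℂ Hp := by
    have hinj' : Function.Injective (Θ ∘ₗ LinearMap.inl ℂ Hp (X → ℂ)) := by
      rw [← LinearMap.ker_eq_bot, LinearMap.ker_eq_bot']
      intro ψ hψ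
      exact (hker (ψ, 0) hψ).1
    exact FiniteDimensional.of_injective _ hinj'
  refine ⟨hfd, ?_⟩
  have c3 : Module.finrank ℂ (LinearMap.ker Θ) ≤ 1 := by
    have hle : LinearMap.ker Θ ≤ Submodule.span ℂ {((0 : Hp), (fun _ => 1 : X → ℂ))} := by
      intro p hp
      obtain ⟨h1, h2⟩ := hker p hp
      rw [Submodule.mem_span_singleton]
      rcases isEmpty_or_nonempty X with hX | ⟨⟨x₀⟩⟩
      · refine ⟨0, ?_⟩
        rw [zero_smul]
        exact Prod.ext h1.symm (funext fun x => (hX.false x).elim)
      · refine ⟨p.2 x₀, ?_⟩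
        refine Prod.ext ?_ (funext fun x => ?_)
        · simp [h1]
        · simp [h2 x x₀]
    refine (Submodule.finrank_mono hle).trans ((finrank_span_le_card _).trans ?_)
    simp
  -- (c2)
  have c2 : Nat.card (MulAction.orbitRel.Quotient (Subgroup.zpowers T) X)
      ≤ Module.finrank ℂ (LinearMap.range lam) + 1 := by
    refine (finrank_fixed_inf_ker_sum T).trans ?_
    apply Nat.add_le_add_right
    apply Submodule.finrank_mono
    rintro f ⟨hf1, hf2⟩
    have hf1' : permOp T f = f := hf1
    have hf2' : ∑ x, f x = 0 := by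
      have : (∑ x : X, LinearMap.proj (R := ℂ) (φ := fun _ : X => ℂ) x) f = 0 := hf2
      simpa [LinearMap.sum_apply] using this
    have hsum : ∑ x, ((n : ℂ)⁻¹ • f) x = 0 := by
      simp only [Pi.smul_apply, smul_eq_mul, ← Finset.mul_sum, hf2', mul_zero]
    obtain ⟨v₁, v₂, hv⟩ := exists_of_sum_eq_zero hgen' _ hsum
    refine ⟨(⟨-(v₁ - permOp S v₁), KS.neg_mem (sub_permOp_mem_ker hPS v₁)⟩,
      ⟨v₂ - permOp (S * T) v₂, sub_permOp_mem_ker hPU v₂⟩), ?_⟩
    show normOp (X := X) T n ((v₂ - permOp (S * T) v₂) - -(v₁ - permOp S v₁)) = f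
    have : (v₂ - permOp (S * T) v₂) - -(v₁ - permOp S v₁) = (n : ℂ)⁻¹ • f := by
      rw [hv]; abel
    rw [this, map_smul, normOp_apply_of_fixed hf1', smul_smul, inv_mul_cancel₀, one_smul]
    exact_mod_cast hn.ne'
  have e1 : Module.finrank ℂ KS + _ = _ :=
    finrank_ker_normOp (X := X) (g := S) (n := 2) (by norm_num) hPS
  have e2 : Module.finrank ℂ KU + _ = _ :=
    finrank_ker_normOp (X := X) (g := S * T) (n := 3) (by norm_num) hPU
  have e3 := LinearMap.finrank_range_add_finrank_ker lam
  have e5 := LinearMap.finrank_range_add_finrank_ker Θ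
  have e7 : Module.finrank ℂ (LinearMap.range Θ) ≤ Module.finrank ℂ (LinearMap.ker lam) :=
    Submodule.finrank_mono c1
  rw [Module.finrank_prod] at e3 e5
  rw [Module.finrank_fintype_fun_eq_card] at e5
  omega

end main

end Fermat.Agent.S21Lib
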