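import Mathlib
import Fermat.Agent.S21.CrossedBound
import Fermat.Agent.S20.CombP1
import Fermat.Prelude.Def_ModularCurve_PeriodMap

/-!
# Upper bound for the dimension of the space of parabolic homomorphisms `Γ₀(N) → ℂ`
-/

set_option autoImplicit false

namespace Fermat.Agent.S21Lib

open Fermat.Agent.S20Lib ModularCurve.Period CongruenceSubgroup ModularGroup
open scoped MatrixGroups

variable (N : ℕ)

theorem cocEl_mem (g : SL(2, ℤ)) (x : X0 N) : (g • x).out⁻¹ * g * x.out ∈ Gamma0 N := by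
  rw [mul_assoc]
  apply QuotientGroup.eq.mp
  rw [QuotientGroup.out_eq']
  conv_lhs => rw [← QuotientGroup.out_eq' x]
  rfl

/-- The Shapiro cocycle element. -/
noncomputable def cocEl (g : SL(2, ℤ)) (x : X0 N) : Gamma0 N :=
  ⟨(g • x).out⁻¹ * g * x.out, cocEl_mem N g x⟩

theorem cocEl_mul (g h : SL(2, ℤ)) (x : X0 N) :
    cocEl N (g * h) x = cocEl N g (h • x) * cocEl N h x := by
  apply Subtype.ext
  show ((g * h) • x).out⁻¹ * (g * h) * x.out
    = ((g • h • x).out⁻¹ * g * (h • x).out) * ((h • x).out⁻¹ * h * x.out)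
  rw [mul_smul]
  group

theorem trace_cocEl {g : SL(2, ℤ)} {x : X0 N} (h : g • x = x) :
    (((cocEl N g x : Gamma0 N) : SL(2, ℤ)) : Matrix (Fin 2) (Fin 2) ℤ).trace
      = (g : Matrix (Fin 2) (Fin 2) ℤ).trace := by
  show (((g • x).out⁻¹ * g * x.out : SL(2, ℤ)) : Matrix (Fin 2) (Fin 2) ℤ).trace = _
  rw [h, Matrix.SpecialLinearGroup.coe_mul, Matrix.SpecialLinearGroup.coe_mul,
    Matrix.trace_mul_cycle, ← Matrix.SpecialLinearGroup.coe_mul, mul_inv_cancel,
    Matrix.SpecialLinearGroup.coe_one, one_mul]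

theorem S_sq_eq : (S : SL(2, ℤ)) ^ 2 = -1 := by
  apply Subtype.ext
  rw [pow_two, Matrix.SpecialLinearGroup.coe_mul, S_mul_S_eq]
  simp

theorem ST_cube_eq : ((S * T : SL(2, ℤ))) ^ 3 = -1 := by
  apply Subtype.ext
  rw [Matrix.SpecialLinearGroup.coe_pow, Matrix.SpecialLinearGroup.coe_mul, coe_S, coe_T]
  simp only [pow_succ, pow_zero, one_mul, Matrix.mul_fin_two]
  ext i j
  fin_cases i <;> fin_cases j <;> simp

theorem neg_one_smul_X0 (x : X0 N) : (-1 : SL(2, ℤ)) • x = x := by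
  induction x using QuotientGroup.induction_on with
  | H g =>
    rw [p1_smul_mk, p1_mk_eq_iff']
    simp
    ring

theorem T_pow_smul_X0 (x : X0 N) : (T ^ N : SL(2, ℤ)) • x = x := by
  induction x using QuotientGroup.induction_on with
  | H g =>
    rw [p1_smul_mk, p1_mk_eq_iff', ← zpow_natCast, (p1_T_zpow_mul _ _).1, (p1_T_zpow_mul _ _).2]
    push_cast
    simp
    ring

/-- The Shapiro map on parabolic homomorphisms. -/
noncomputable def shapiro :
    parabolicHoms ℂ (Gamma0 N) ℂ →ₗ[ℂ] (SL(2, ℤ) → X0 N → ℂ) where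
  toFun ψ := fun g x => (ψ : Additive (Gamma0 N) →+ ℂ) (Additive.ofMul (cocEl N g x))
  map_add' _ _ := rfl
  map_smul' _ _ := rfl

theorem shapiro_apply (ψ : parabolicHoms ℂ (Gamma0 N) ℂ) (g : SL(2, ℤ)) (x : X0 N) :
    shapiro N ψ g x = (ψ : Additive (Gamma0 N) →+ ℂ) (Additive.ofMul (cocEl N g x)) := rfl

theorem shapiro_isCrossed (ψ : parabolicHoms ℂ (Gamma0 N) ℂ) : IsCrossed (shapiro N ψ) := by
  intro g h
  funext x
  show shapiro N ψ (g * h) x = shapiro N ψ g (h • x) + shapiro N ψ h x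
  rw [shapiro_apply, shapiro_apply, shapiro_apply, cocEl_mul, ofMul_mul, map_add]

theorem shapiro_eq_zero (ψ : parabolicHoms ℂ (Gamma0 N) ℂ) {g : SL(2, ℤ)}
    (hg : ∀ x : X0 N, g • x = x) (htr : (g : Matrix (Fin 2) (Fin 2) ℤ).trace ^ 2 = 4) :
    shapiro N ψ g = 0 := by
  funext x
  rw [shapiro_apply]
  apply ψ.2
  rw [trace_cocEl N (hg x), htr]

theorem finrank_parabolicHoms_le [NeZero N] :
    FiniteDimensional ℂ (parabolicHoms ℂ (Gamma0 N) ℂ) ∧
    (Module.finrank ℂ (parabolicHoms ℂ (Gamma0 N) ℂ) : ℤ) + orbCount N S + orbCount N (S * T)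
      + orbCount N T ≤ 2 + Nat.card (X0 N) := by
  classical
  have : Finite (X0 N) := inferInstance
  have : Fintype (X0 N) := Fintype.ofFinite _
  have hS : ∀ x : X0 N, ((S : SL(2, ℤ)) ^ 2) • x = x := by
    intro x; rw [S_sq_eq]; exact neg_one_smul_X0 N x
  have hU : ∀ x : X0 N, ((S * T : SL(2, ℤ)) ^ 3) • x = x := by
    intro x; rw [ST_cube_eq]; exact neg_one_smul_X0 N x
  have htr1 : ((-1 : SL(2, ℤ)) : Matrix (Fin 2) (Fin 2) ℤ).trace ^ 2 = 4 := by
    simp
  have htrT : ((T ^ N : SL(2, ℤ)) : Matrix (Fin 2) (Fin 2) ℤ).trace ^ 2 = 4 := by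
    rw [← zpow_natCast, coe_T_zpow]
    simp [Matrix.trace_fin_two]
  obtain ⟨h1, h2⟩ := crossed_bound (G := SL(2, ℤ)) (X := X0 N) (shapiro N) S T N
    (Nat.pos_of_ne_zero (NeZero.ne N)) SpecialLinearGroup.SL2Z_generators hS hU
    (T_pow_smul_X0 N) (shapiro_isCrossed N)
    (fun ψ => shapiro_eq_zero N ψ hS (by rw [S_sq_eq]; exact htr1))
    (fun ψ => shapiro_eq_zero N ψ hU (by rw [ST_cube_eq]; exact htr1))
    (fun ψ => shapiro_eq_zero N ψ (T_pow_smul_X0 N) htrT)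
    (by
      intro ψ v hv
      apply Subtype.ext
      apply AddMonoidHom.ext
      intro γ'
      obtain ⟨γ, rfl⟩ := Additive.ofMul.surjective γ'
      show (ψ : Additive (Gamma0 N) →+ ℂ) (Additive.ofMul γ) = 0
      let x₀ : X0 N := ((1 : SL(2, ℤ)) : X0 N)
      have hx₀ : (γ : SL(2, ℤ)) • x₀ = x₀ := by
        show (((γ : SL(2, ℤ)) * 1 : SL(2, ℤ)) : X0 N) = ((1 : SL(2, ℤ)) : X0 N)
        rw [mul_one, QuotientGroup.eq, mul_one]
        exact (Gamma0 N).inv_mem γ.2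
      have hout : x₀.out ∈ Gamma0 N := by
        have h3 : ((1 : SL(2, ℤ)) : X0 N) = (x₀.out : X0 N) := (QuotientGroup.out_eq' x₀).symm
        have h4 := QuotientGroup.eq.mp h3
        rwa [inv_one, one_mul] at h4
      have hco : cocEl N (γ : SL(2, ℤ)) x₀ = (⟨x₀.out, hout⟩ : Gamma0 N)⁻¹ * γ * ⟨x₀.out, hout⟩ := by
        apply Subtype.ext
        show ((γ : SL(2, ℤ)) • x₀).out⁻¹ * γ * x₀.out = x₀.out⁻¹ * γ * x₀.out
        rw [hx₀]
      have h5 := congrFun (hv (γ : SL(2, ℤ))) x₀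
      rw [shapiro_apply, hco, ofMul_mul, ofMul_mul, map_add, map_add, ofMul_inv, map_neg] at h5
      simp only [Pi.sub_apply, permOp_apply, hx₀, sub_self] at h5
      linear_combination h5)
  refine ⟨h1, ?_⟩
  rw [Nat.card_eq_fintype_card]
  unfold orbCount
  exact_mod_cast h2

end Fermat.Agent.S21Lib
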