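import Mathlib
import Fermat.Agent.S21.Final
import Fermat.Agent.S21.ParabolicBound
import Fermat.Agent.S20.CombCard
import Fermat.Agent.S20.CombT

set_option autoImplicit false

namespace Fermat.Agent.S21Lib

open CongruenceSubgroup ModularCurve ModularCurve.Period Fermat.Agent.S20Lib
open scoped MatrixGroups

/-- the dimension of the space of parabolic homomorphisms is at most twice the genus formula. -/
theorem finrank_parabolicHoms_le_genus (N : ℕ) [NeZero N] :
    (Module.finrank ℂ (parabolicHoms ℂ (Gamma0 N) ℂ) : ℚ) ≤ 2 * genusFormula N := by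
  obtain ⟨-, h⟩ := finrank_parabolicHoms_le (N := N)
  have h1 := card_X0 N
  have h2 := two_mul_orbCount_S N
  have h3 := three_mul_orbCount_ST N
  have h4 := orbCount_T N
  rw [h1, h4] at h
  have hq : (Module.finrank ℂ (parabolicHoms ℂ (Gamma0 N) ℂ) : ℚ) + orbCount N ModularGroup.S
      + orbCount N (ModularGroup.S * ModularGroup.T) + cuspCount N ≤ 2 + dedekindPsi N := by
    exact_mod_cast h
  have h2q : (2 : ℚ) * orbCount N ModularGroup.S = dedekindPsi N + nuTwo N := by exact_mod_cast h2
  have h3q : (3 : ℚ) * orbCount N (ModularGroup.S * ModularGroup.T)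
      = dedekindPsi N + 2 * nuThree N := by exact_mod_cast h3
  unfold genusFormula
  linarith

/-- the upper bound for the dimension of `S₂(Γ₀(N))` -/
theorem finrank_cuspForm_le_genus (N : ℕ) [NeZero N] :
    (Module.finrank ℂ (CuspForm (Gamma0 N) 2) : ℚ) ≤ genusFormula N := by
  obtain ⟨hfin, -⟩ := finrank_parabolicHoms_le (N := N)
  have hinj := injective_periodHomPair N
  have hr := range_periodHomPair_le N
  let T : (CuspForm (Gamma0 N) 2 × CuspForm (Gamma0 N) 2) →ₗ[ℂ] parabolicHoms ℂ (Gamma0 N) ℂ :=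
    (periodHomPair N).codRestrict _ fun x => hr ⟨x, rfl⟩
  have hT : Function.Injective T := fun a b hab => hinj (congrArg Subtype.val hab)
  have hfd : FiniteDimensional ℂ (CuspForm (Gamma0 N) 2 × CuspForm (Gamma0 N) 2) :=
    FiniteDimensional.of_injective T hT
  have hfd1 : FiniteDimensional ℂ (CuspForm (Gamma0 N) 2) :=
    FiniteDimensional.of_injective (LinearMap.inl ℂ _ (CuspForm (Gamma0 N) 2)) LinearMap.inl_injective
  have h1 := LinearMap.finrank_le_finrank_of_injective hT
  rw [Module.finrank_prod] at h1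
  have h2 := finrank_parabolicHoms_le_genus N
  have h3 : ((Module.finrank ℂ (CuspForm (Gamma0 N) 2) + Module.finrank ℂ (CuspForm (Gamma0 N) 2)
      : ℕ) : ℚ) ≤ Module.finrank ℂ (parabolicHoms ℂ (Gamma0 N) ℂ) := by exact_mod_cast h1
  push_cast at h3
  linarith

/-- Eichler–Shimura from the dimension formula. -/
theorem eichlerShimura_of_dim (N : ℕ) [NeZero N]
    (h : genusFormula N ≤ (Module.finrank ℂ (CuspForm (Gamma0 N) 2) : ℚ)) :
    Function.Injective (periodHomPair N)
      ∧ LinearMap.range (periodHomPair N) = parabolicHoms ℂ (Gamma0 N) ℂ := by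
  obtain ⟨hfin, -⟩ := finrank_parabolicHoms_le (N := N)
  refine eichlerShimura_of_finrank_le N hfin ?_
  have h2 := finrank_parabolicHoms_le_genus N
  have h3 : (Module.finrank ℂ (parabolicHoms ℂ (Gamma0 N) ℂ) : ℚ)
      ≤ ((2 * Module.finrank ℂ (CuspForm (Gamma0 N) 2) : ℕ) : ℚ) := by
    push_cast; linarith
  exact_mod_cast h3

end Fermat.Agent.S21Lib
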